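import Mathlib

/-!
# Row LT, tower A2, leaf A2.03.7.1 `BesselInvC` (helper144) -- CORE, Mathlib only, OFF-MAIN

Registry row 1126 (sub-leaf of A2.03.7 `WhitMeanC`, cut by helper416, `LT/A2/H416/MeanSpec.lean`).

`J(y) = ∫ A exp(-a y (p + q)) dμ` with `p q = 1`; if `∫ A exp(-a y (r⁻² p + r² q)) dμ = J(y)` for
all `r > 0`, then `J` is twice differentiable on `y > 0` and `y J'' + J' - 4 a² y J = 0`.

Four differentiations under the integral sign
(`hasDerivAt_integral_of_dominated_loc_of_deriv_le`), all through ONE kernel lemma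
`hasDerivAt_integral_kernel144b`: with `S = p + q`,
`(c₁ S + c₂ S²) e^{-2 ε S} ≤ (c₁ / ε + 2 c₂ / ε²) e^{-ε S}`.
`G(s) = ∫ A exp(-a y (e^{-2s} p + e^{2s} q))` is constant, so `G' = 0` near `0` and `G''(0) = 0`,
and `G''(0) = 4 y (y J'' + J' - 4 a² y J)` because `(q - p)² = S² - 4`.
-/

set_option autoImplicit false

open MeasureTheory

noncomputable section

namespace Fermat.Agent.LT.A2.H144

/-! ## Elementary bounds -/

theorem mul_exp_neg_le_one144b {u : ℝ} : u * Real.exp (-u) ≤ 1 := by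
  have h1 : u ≤ Real.exp u := by linarith [Real.add_one_le_exp u]
  have h2 : 0 < Real.exp u := Real.exp_pos u
  rw [Real.exp_neg, ← div_eq_mul_inv, div_le_one h2]
  exact h1

theorem sq_mul_exp_neg_le_two144b {u : ℝ} (hu : 0 ≤ u) : u ^ 2 * Real.exp (-u) ≤ 2 := by
  have h1 : u ^ 2 ≤ 2 * Real.exp u := by
    nlinarith [Real.quadratic_le_exp_of_nonneg hu]
  have h2 : 0 < Real.exp u := Real.exp_pos u
  rw [Real.exp_neg, ← div_eq_mul_inv, div_le_iff₀ h2]
  exact h1

/-- `(c₁ x + c₂ x²) e^{-2 ε x} ≤ (c₁ / ε + 2 c₂ / ε²) e^{-ε x}` for `x ≥ 0`. -/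
theorem poly_exp_bound144b {ε x c₁ c₂ : ℝ} (hε : 0 < ε) (hx : 0 ≤ x) (hc₁ : 0 ≤ c₁)
    (hc₂ : 0 ≤ c₂) :
    (c₁ * x + c₂ * x ^ 2) * Real.exp (-(2 * (ε * x)))
      ≤ (c₁ / ε + 2 * c₂ / ε ^ 2) * Real.exp (-(ε * x)) := by
  have hu : 0 ≤ ε * x := mul_nonneg hε.le hx
  have e1 : ε * x * Real.exp (-(ε * x)) ≤ 1 := mul_exp_neg_le_one144b
  have e2 : (ε * x) ^ 2 * Real.exp (-(ε * x)) ≤ 2 := sq_mul_exp_neg_le_two144b hu
  have hsplit : Real.exp (-(2 * (ε * x))) = Real.exp (-(ε * x)) * Real.exp (-(ε * x)) := by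
    rw [← Real.exp_add]
    ring_nf
  have hpos : 0 < Real.exp (-(ε * x)) := Real.exp_pos _
  have t1 : c₁ * x * Real.exp (-(ε * x)) ≤ c₁ / ε := by
    have h : c₁ * x * Real.exp (-(ε * x)) = (c₁ / ε) * ((ε * x) * Real.exp (-(ε * x))) := by
      field_simp
    rw [h]
    exact mul_le_of_le_one_right (div_nonneg hc₁ hε.le) e1
  have t2 : c₂ * x ^ 2 * Real.exp (-(ε * x)) ≤ 2 * c₂ / ε ^ 2 := by
    have h : c₂ * x ^ 2 * Real.exp (-(ε * x))
        = (c₂ / ε ^ 2) * ((ε * x) ^ 2 * Real.exp (-(ε * x))) := by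
      field_simp
    rw [h]
    calc (c₂ / ε ^ 2) * ((ε * x) ^ 2 * Real.exp (-(ε * x))) ≤ (c₂ / ε ^ 2) * 2 :=
          mul_le_mul_of_nonneg_left e2 (by positivity)
      _ = 2 * c₂ / ε ^ 2 := by ring
  rw [hsplit]
  calc (c₁ * x + c₂ * x ^ 2) * (Real.exp (-(ε * x)) * Real.exp (-(ε * x)))
      = (c₁ * x * Real.exp (-(ε * x)) + c₂ * x ^ 2 * Real.exp (-(ε * x)))
          * Real.exp (-(ε * x)) := by ring
    _ ≤ (c₁ / ε + 2 * c₂ / ε ^ 2) * Real.exp (-(ε * x)) := by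
        apply mul_le_mul_of_nonneg_right _ hpos.le
        linarith

/-! ## The kernel lemma -/

/-- Differentiation under the integral sign for `t ↦ ∫ A(m) k(t, m) dμ`, `k` real valued with
`|∂_t k| ≤ (c₁ S + c₂ S²) e^{-2 ε S}` near `t₀` and `A e^{-ε S}` integrable. -/
theorem hasDerivAt_integral_kernel144b {X : Type} [MeasurableSpace X] {μ : Measure X}
    {A : X → ℂ} (hA : AEStronglyMeasurable A μ) {S : X → ℝ} (hS : ∀ᵐ m ∂μ, 0 ≤ S m)
    {k k' : ℝ → X → ℝ} {t₀ δ : ℝ} (hδ : 0 < δ)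
    (hk_meas : ∀ t, AEMeasurable (k t) μ) (hk'_meas : AEMeasurable (k' t₀) μ)
    (hint0 : Integrable (fun m => A m * ((k t₀ m : ℝ) : ℂ)) μ)
    {c₁ c₂ ε : ℝ} (hε : 0 < ε) (hc₁ : 0 ≤ c₁) (hc₂ : 0 ≤ c₂)
    (hB : Integrable (fun m => A m * ((Real.exp (-(ε * S m)) : ℝ) : ℂ)) μ)
    (hbound : ∀ᵐ m ∂μ, ∀ t ∈ Metric.ball t₀ δ,
      |k' t m| ≤ (c₁ * S m + c₂ * S m ^ 2) * Real.exp (-(2 * (ε * S m))))
    (hdiff : ∀ m, ∀ t ∈ Metric.ball t₀ δ, HasDerivAt (fun t => k t m) (k' t m) t) :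
    Integrable (fun m => A m * ((k' t₀ m : ℝ) : ℂ)) μ ∧
    HasDerivAt (fun t => ∫ m, A m * ((k t m : ℝ) : ℂ) ∂μ)
      (∫ m, A m * ((k' t₀ m : ℝ) : ℂ) ∂μ) t₀ := by
  refine hasDerivAt_integral_of_dominated_loc_of_deriv_le
    (F := fun t m => A m * ((k t m : ℝ) : ℂ)) (F' := fun t m => A m * ((k' t m : ℝ) : ℂ))
    (s := Metric.ball t₀ δ)
    (bound := fun m => (c₁ / ε + 2 * c₂ / ε ^ 2) * ‖A m * ((Real.exp (-(ε * S m)) : ℝ) : ℂ)‖)
    (Metric.ball_mem_nhds t₀ hδ) ?_ hint0 ?_ ?_ ?_ ?_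
  · exact Filter.Eventually.of_forall fun t =>
      hA.mul (Complex.measurable_ofReal.comp_aemeasurable (hk_meas t)).aestronglyMeasurable
  · exact hA.mul (Complex.measurable_ofReal.comp_aemeasurable hk'_meas).aestronglyMeasurable
  · filter_upwards [hbound, hS] with m hm hSm t ht
    have h1 := hm t ht
    have h2 := poly_exp_bound144b (x := S m) hε hSm hc₁ hc₂
    rw [norm_mul, norm_mul, Complex.norm_real, Complex.norm_real, Real.norm_eq_abs,
      Real.norm_eq_abs, abs_of_pos (Real.exp_pos _)]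
    calc ‖A m‖ * |k' t m| ≤ ‖A m‖ * ((c₁ / ε + 2 * c₂ / ε ^ 2) * Real.exp (-(ε * S m))) :=
          mul_le_mul_of_nonneg_left (h1.trans h2) (norm_nonneg _)
      _ = (c₁ / ε + 2 * c₂ / ε ^ 2) * (‖A m‖ * Real.exp (-(ε * S m))) := by ring
  · exact hB.norm.const_mul _
  · refine Filter.Eventually.of_forall fun m t ht => ?_
    exact ((hdiff m t ht).ofReal_comp).const_mul (A m)

/-! ## Calculus of the kernels -/

theorem hasDerivAt_lin144b (c s : ℝ) : HasDerivAt (fun s : ℝ => c * s) c s := by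
  have h := (hasDerivAt_id s).const_mul c
  rw [mul_one] at h
  exact h

theorem hasDerivAt_k0_144b (a S y : ℝ) :
    HasDerivAt (fun y : ℝ => Real.exp (-(a * y * S)))
      (-(a * S) * Real.exp (-(a * y * S))) y := by
  have h0 : HasDerivAt (fun y : ℝ => a * y * S) (a * S) y :=
    (hasDerivAt_lin144b a y).mul_const S
  have h1 : HasDerivAt (fun y : ℝ => -(a * y * S)) (-(a * S)) y := h0.neg
  have h2 : HasDerivAt (fun y : ℝ => Real.exp (-(a * y * S)))
      (Real.exp (-(a * y * S)) * (-(a * S))) y := h1.exp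
  exact h2.congr_deriv (by ring)

theorem hasDerivAt_k1_144b (a S y : ℝ) :
    HasDerivAt (fun y : ℝ => -(a * S) * Real.exp (-(a * y * S)))
      ((a * S) ^ 2 * Real.exp (-(a * y * S))) y := by
  have h : HasDerivAt (fun y : ℝ => -(a * S) * Real.exp (-(a * y * S)))
      (-(a * S) * (-(a * S) * Real.exp (-(a * y * S)))) y :=
    (hasDerivAt_k0_144b a S y).const_mul (-(a * S))
  exact h.congr_deriv (by ring)

theorem hasDerivAt_expm_144b (s : ℝ) :
    HasDerivAt (fun s : ℝ => Real.exp (-(2 * s))) (-2 * Real.exp (-(2 * s))) s := by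
  have h1 : HasDerivAt (fun s : ℝ => -(2 * s)) (-2) s := (hasDerivAt_lin144b 2 s).neg
  have h2 : HasDerivAt (fun s : ℝ => Real.exp (-(2 * s))) (Real.exp (-(2 * s)) * (-2)) s :=
    h1.exp
  exact h2.congr_deriv (by ring)

theorem hasDerivAt_expp_144b (s : ℝ) :
    HasDerivAt (fun s : ℝ => Real.exp (2 * s)) (2 * Real.exp (2 * s)) s := by
  have h2 : HasDerivAt (fun s : ℝ => Real.exp (2 * s)) (Real.exp (2 * s) * 2) s :=
    (hasDerivAt_lin144b 2 s).exp
  exact h2.congr_deriv (by ring)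

/-- The exponent `E(s) = a y (e^{-2s} p + e^{2s} q)`. -/
theorem hasDerivAt_E_144b (a y p q s : ℝ) :
    HasDerivAt (fun s : ℝ => a * y * (Real.exp (-(2 * s)) * p + Real.exp (2 * s) * q))
      (a * y * (-2 * Real.exp (-(2 * s)) * p + 2 * Real.exp (2 * s) * q)) s :=
  (((hasDerivAt_expm_144b s).mul_const p).add ((hasDerivAt_expp_144b s).mul_const q)).const_mul
    (a * y)

/-- The first derivative of the exponent. -/
theorem hasDerivAt_E'_144b (a y p q s : ℝ) :
    HasDerivAt (fun s : ℝ => a * y * (-2 * Real.exp (-(2 * s)) * p + 2 * Real.exp (2 * s) * q))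
      (a * y * (4 * Real.exp (-(2 * s)) * p + 4 * Real.exp (2 * s) * q)) s := by
  have h : HasDerivAt
      (fun s : ℝ => a * y * (-2 * Real.exp (-(2 * s)) * p + 2 * Real.exp (2 * s) * q))
      (a * y * (-2 * (-2 * Real.exp (-(2 * s))) * p + 2 * (2 * Real.exp (2 * s)) * q)) s :=
    ((((hasDerivAt_expm_144b s).const_mul (-2 : ℝ)).mul_const p).add
      (((hasDerivAt_expp_144b s).const_mul (2 : ℝ)).mul_const q)).const_mul (a * y)
  exact h.congr_deriv (by ring)

/-- `g₀(s) = exp(-E(s))`. -/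
def g0_144b (a y p q s : ℝ) : ℝ :=
  Real.exp (-(a * y * (Real.exp (-(2 * s)) * p + Real.exp (2 * s) * q)))

/-- `g₁ = ∂_s g₀ = -E' exp(-E)`. -/
def g1_144b (a y p q s : ℝ) : ℝ :=
  -(a * y * (-2 * Real.exp (-(2 * s)) * p + 2 * Real.exp (2 * s) * q))
    * Real.exp (-(a * y * (Real.exp (-(2 * s)) * p + Real.exp (2 * s) * q)))

/-- `g₂ = ∂_s g₁ = (E'² - E'') exp(-E)`. -/
def g2_144b (a y p q s : ℝ) : ℝ :=
  ((a * y * (-2 * Real.exp (-(2 * s)) * p + 2 * Real.exp (2 * s) * q)) ^ 2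
      - a * y * (4 * Real.exp (-(2 * s)) * p + 4 * Real.exp (2 * s) * q))
    * Real.exp (-(a * y * (Real.exp (-(2 * s)) * p + Real.exp (2 * s) * q)))

theorem hasDerivAt_g0_144b (a y p q s : ℝ) :
    HasDerivAt (fun s => g0_144b a y p q s) (g1_144b a y p q s) s := by
  have h : HasDerivAt
      (fun s : ℝ => Real.exp (-(a * y * (Real.exp (-(2 * s)) * p + Real.exp (2 * s) * q))))
      (Real.exp (-(a * y * (Real.exp (-(2 * s)) * p + Real.exp (2 * s) * q)))
        * (-(a * y * (-2 * Real.exp (-(2 * s)) * p + 2 * Real.exp (2 * s) * q)))) s :=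
    ((hasDerivAt_E_144b a y p q s).neg).exp
  exact h.congr_deriv (by unfold g1_144b; ring)

theorem hasDerivAt_g1_144b (a y p q s : ℝ) :
    HasDerivAt (fun s => g1_144b a y p q s) (g2_144b a y p q s) s := by
  have h0 : HasDerivAt
      (fun s : ℝ => Real.exp (-(a * y * (Real.exp (-(2 * s)) * p + Real.exp (2 * s) * q))))
      (Real.exp (-(a * y * (Real.exp (-(2 * s)) * p + Real.exp (2 * s) * q)))
        * (-(a * y * (-2 * Real.exp (-(2 * s)) * p + 2 * Real.exp (2 * s) * q)))) s :=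
    ((hasDerivAt_E_144b a y p q s).neg).exp
  have h1 : HasDerivAt
      (fun s : ℝ => -(a * y * (-2 * Real.exp (-(2 * s)) * p + 2 * Real.exp (2 * s) * q)))
      (-(a * y * (4 * Real.exp (-(2 * s)) * p + 4 * Real.exp (2 * s) * q))) s :=
    (hasDerivAt_E'_144b a y p q s).neg
  have h : HasDerivAt
      (fun s : ℝ => -(a * y * (-2 * Real.exp (-(2 * s)) * p + 2 * Real.exp (2 * s) * q))
        * Real.exp (-(a * y * (Real.exp (-(2 * s)) * p + Real.exp (2 * s) * q))))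
      (-(a * y * (4 * Real.exp (-(2 * s)) * p + 4 * Real.exp (2 * s) * q))
          * Real.exp (-(a * y * (Real.exp (-(2 * s)) * p + Real.exp (2 * s) * q)))
        + -(a * y * (-2 * Real.exp (-(2 * s)) * p + 2 * Real.exp (2 * s) * q))
          * (Real.exp (-(a * y * (Real.exp (-(2 * s)) * p + Real.exp (2 * s) * q)))
            * (-(a * y * (-2 * Real.exp (-(2 * s)) * p + 2 * Real.exp (2 * s) * q))))) s :=
    h1.mul h0
  exact h.congr_deriv (by unfold g2_144b; ring)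


/-! ## Bounds for the `s`-kernels, `|s| < 1/2` -/

theorem exp_two_mul_bounds144b {s : ℝ} (hs : |s| < 1 / 2) :
    1 / 3 ≤ Real.exp (-(2 * s)) ∧ Real.exp (-(2 * s)) ≤ 3 ∧
    1 / 3 ≤ Real.exp (2 * s) ∧ Real.exp (2 * s) ≤ 3 := by
  have h1 := abs_lt.mp hs
  have e3 : Real.exp 1 ≤ 3 := (Real.exp_one_lt_d9.trans (by norm_num)).le
  have em : (1 : ℝ) / 3 ≤ Real.exp (-1) := by
    rw [Real.exp_neg, one_div]
    exact inv_anti₀ (Real.exp_pos 1) e3
  refine ⟨?_, ?_, ?_, ?_⟩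
  · exact em.trans (Real.exp_le_exp.mpr (by linarith))
  · exact (Real.exp_le_exp.mpr (by linarith)).trans e3
  · exact em.trans (Real.exp_le_exp.mpr (by linarith))
  · exact (Real.exp_le_exp.mpr (by linarith)).trans e3

theorem g0_bound144b {a y p q s : ℝ} (ha : 0 < a) (hy : 0 < y) (hp : 0 < p) (hq : 0 < q)
    (hs : |s| < 1 / 2) :
    |g0_144b a y p q s| ≤ Real.exp (-(2 * (a * (y / 6) * (p + q)))) := by
  obtain ⟨l1, u1, l2, u2⟩ := exp_two_mul_bounds144b hs
  unfold g0_144b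
  rw [abs_of_pos (Real.exp_pos _)]
  apply Real.exp_le_exp.mpr
  have hay : 0 < a * y := mul_pos ha hy
  have h1 : (p + q) / 3 ≤ Real.exp (-(2 * s)) * p + Real.exp (2 * s) * q := by nlinarith
  have h2 := mul_le_mul_of_nonneg_left h1 hay.le
  nlinarith

theorem g1_bound144b {a y p q s : ℝ} (ha : 0 < a) (hy : 0 < y) (hp : 0 < p) (hq : 0 < q)
    (hs : |s| < 1 / 2) :
    |g1_144b a y p q s|
      ≤ (a * y * 6 * (p + q) + 0 * (p + q) ^ 2) * Real.exp (-(2 * (a * (y / 6) * (p + q)))) := by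
  obtain ⟨l1, u1, l2, u2⟩ := exp_two_mul_bounds144b hs
  have hg0 := g0_bound144b ha hy hp hq hs
  unfold g0_144b at hg0
  rw [abs_of_pos (Real.exp_pos _)] at hg0
  unfold g1_144b
  rw [abs_mul, abs_of_pos (Real.exp_pos _), abs_neg]
  have hay : 0 < a * y := mul_pos ha hy
  have h1 : |a * y * (-2 * Real.exp (-(2 * s)) * p + 2 * Real.exp (2 * s) * q)|
      ≤ a * y * 6 * (p + q) := by
    rw [abs_mul, abs_of_pos hay]
    have : |-2 * Real.exp (-(2 * s)) * p + 2 * Real.exp (2 * s) * q| ≤ 6 * (p + q) := by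
      rw [abs_le]
      constructor <;> nlinarith
    nlinarith
  calc |a * y * (-2 * Real.exp (-(2 * s)) * p + 2 * Real.exp (2 * s) * q)|
        * Real.exp (-(a * y * (Real.exp (-(2 * s)) * p + Real.exp (2 * s) * q)))
      ≤ (a * y * 6 * (p + q)) * Real.exp (-(2 * (a * (y / 6) * (p + q)))) :=
        mul_le_mul h1 hg0 (Real.exp_pos _).le (by positivity)
    _ = _ := by ring

theorem g2_bound144b {a y p q s : ℝ} (ha : 0 < a) (hy : 0 < y) (hp : 0 < p) (hq : 0 < q)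
    (hs : |s| < 1 / 2) :
    |g2_144b a y p q s|
      ≤ (a * y * 12 * (p + q) + (a * y * 6) ^ 2 * (p + q) ^ 2)
        * Real.exp (-(2 * (a * (y / 6) * (p + q)))) := by
  obtain ⟨l1, u1, l2, u2⟩ := exp_two_mul_bounds144b hs
  have hg0 := g0_bound144b ha hy hp hq hs
  unfold g0_144b at hg0
  rw [abs_of_pos (Real.exp_pos _)] at hg0
  unfold g2_144b
  rw [abs_mul, abs_of_pos (Real.exp_pos _)]
  have hay : 0 < a * y := mul_pos ha hy
  have h1 : |a * y * (-2 * Real.exp (-(2 * s)) * p + 2 * Real.exp (2 * s) * q)|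
      ≤ a * y * 6 * (p + q) := by
    rw [abs_mul, abs_of_pos hay]
    have : |-2 * Real.exp (-(2 * s)) * p + 2 * Real.exp (2 * s) * q| ≤ 6 * (p + q) := by
      rw [abs_le]
      constructor <;> nlinarith
    nlinarith
  have h2 : (a * y * (-2 * Real.exp (-(2 * s)) * p + 2 * Real.exp (2 * s) * q)) ^ 2
      ≤ (a * y * 6) ^ 2 * (p + q) ^ 2 := by
    rw [← mul_pow, ← sq_abs (a * y * (-2 * Real.exp (-(2 * s)) * p + 2 * Real.exp (2 * s) * q))]
    exact pow_le_pow_left₀ (abs_nonneg _) h1 2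
  have h3 : 0 ≤ a * y * (4 * Real.exp (-(2 * s)) * p + 4 * Real.exp (2 * s) * q) := by
    have : 0 ≤ 4 * Real.exp (-(2 * s)) * p + 4 * Real.exp (2 * s) * q := by nlinarith
    positivity
  have h4 : a * y * (4 * Real.exp (-(2 * s)) * p + 4 * Real.exp (2 * s) * q)
      ≤ a * y * 12 * (p + q) := by
    have : 4 * Real.exp (-(2 * s)) * p + 4 * Real.exp (2 * s) * q ≤ 12 * (p + q) := by nlinarith
    nlinarith
  have h5 : |(a * y * (-2 * Real.exp (-(2 * s)) * p + 2 * Real.exp (2 * s) * q)) ^ 2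
      - a * y * (4 * Real.exp (-(2 * s)) * p + 4 * Real.exp (2 * s) * q)|
      ≤ a * y * 12 * (p + q) + (a * y * 6) ^ 2 * (p + q) ^ 2 := by
    rw [abs_le]
    constructor
    · nlinarith [sq_nonneg (a * y * (-2 * Real.exp (-(2 * s)) * p + 2 * Real.exp (2 * s) * q)),
        sq_nonneg ((a * y * 6) * (p + q))]
    · nlinarith [sq_nonneg (a * y * (-2 * Real.exp (-(2 * s)) * p + 2 * Real.exp (2 * s) * q))]
  exact mul_le_mul h5 hg0 (Real.exp_pos _).le (by positivity)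


/-! ## The main theorem, real-exponential form -/

section Main

variable {X : Type} [MeasurableSpace X] {μ : Measure X} {a : ℝ} {A : X → ℂ} {p q : X → ℝ}

theorem aemeas_k0_144b (hp : AEMeasurable p μ) (hq : AEMeasurable q μ) (y : ℝ) :
    AEMeasurable (fun m => Real.exp (-(a * y * (p m + q m)))) μ :=
  Real.measurable_exp.comp_aemeasurable (((hp.add hq).const_mul (a * y)).neg)

theorem aemeas_k1_144b (hp : AEMeasurable p μ) (hq : AEMeasurable q μ) (y : ℝ) :
    AEMeasurable (fun m => -(a * (p m + q m)) * Real.exp (-(a * y * (p m + q m)))) μ :=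
  (((hp.add hq).const_mul a).neg).mul (aemeas_k0_144b hp hq y)

theorem aemeas_k2_144b (hp : AEMeasurable p μ) (hq : AEMeasurable q μ) (y : ℝ) :
    AEMeasurable (fun m => (a * (p m + q m)) ^ 2 * Real.exp (-(a * y * (p m + q m)))) μ :=
  ((((hp.add hq).const_mul a)).pow_const 2).mul (aemeas_k0_144b hp hq y)

theorem aemeas_g0_144b (hp : AEMeasurable p μ) (hq : AEMeasurable q μ) (y s : ℝ) :
    AEMeasurable (fun m => g0_144b a y (p m) (q m) s) μ := by
  unfold g0_144b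
  exact Real.measurable_exp.comp_aemeasurable
    (((((hp.const_mul (Real.exp (-(2 * s)))).add (hq.const_mul (Real.exp (2 * s)))).const_mul
      (a * y))).neg)

theorem aemeas_g1_144b (hp : AEMeasurable p μ) (hq : AEMeasurable q μ) (y s : ℝ) :
    AEMeasurable (fun m => g1_144b a y (p m) (q m) s) μ := by
  have h0 := aemeas_g0_144b (a := a) hp hq y s
  unfold g0_144b at h0
  unfold g1_144b
  exact ((((hp.const_mul (-2 * Real.exp (-(2 * s)))).add
    (hq.const_mul (2 * Real.exp (2 * s)))).const_mul (a * y)).neg).mul h0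

theorem aemeas_g2_144b (hp : AEMeasurable p μ) (hq : AEMeasurable q μ) (y s : ℝ) :
    AEMeasurable (fun m => g2_144b a y (p m) (q m) s) μ := by
  have h0 := aemeas_g0_144b (a := a) hp hq y s
  unfold g0_144b at h0
  unfold g2_144b
  exact ((((((hp.const_mul (-2 * Real.exp (-(2 * s)))).add
    (hq.const_mul (2 * Real.exp (2 * s)))).const_mul (a * y))).pow_const 2).sub
    (((hp.const_mul (4 * Real.exp (-(2 * s)))).add
      (hq.const_mul (4 * Real.exp (2 * s)))).const_mul (a * y))).mul h0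

/-- First derivative of `J` (with the integrability of the derived integrand). -/
theorem hasDerivAt_J_144b (ha : 0 < a) (hA : AEStronglyMeasurable A μ) (hp : AEMeasurable p μ)
    (hq : AEMeasurable q μ) (hpq : ∀ᵐ m ∂μ, 0 < p m ∧ 0 < q m ∧ p m * q m = 1)
    (hint : ∀ y : ℝ, 0 < y →
      Integrable (fun m => A m * ((Real.exp (-(a * y * (p m + q m))) : ℝ) : ℂ)) μ)
    {y₀ : ℝ} (hy₀ : 0 < y₀) :
    Integrable (fun m => A m
      * ((-(a * (p m + q m)) * Real.exp (-(a * y₀ * (p m + q m))) : ℝ) : ℂ)) μ ∧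
    HasDerivAt (fun y : ℝ => ∫ m, A m * ((Real.exp (-(a * y * (p m + q m))) : ℝ) : ℂ) ∂μ)
      (∫ m, A m * ((-(a * (p m + q m)) * Real.exp (-(a * y₀ * (p m + q m))) : ℝ) : ℂ) ∂μ)
      y₀ := by
  have hS : ∀ᵐ m ∂μ, 0 ≤ p m + q m := hpq.mono fun m h => by linarith [h.1, h.2.1]
  refine hasDerivAt_integral_kernel144b (μ := μ) hA (S := fun m => p m + q m) hS
    (k := fun y m => Real.exp (-(a * y * (p m + q m))))
    (k' := fun y m => -(a * (p m + q m)) * Real.exp (-(a * y * (p m + q m))))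
    (t₀ := y₀) (δ := y₀ / 2) (by positivity) (fun y => aemeas_k0_144b hp hq y)
    (aemeas_k1_144b hp hq y₀) (hint y₀ hy₀) (c₁ := a) (c₂ := 0) (ε := a * (y₀ / 4))
    (by positivity) ha.le le_rfl (hint (y₀ / 4) (by positivity)) ?_ ?_
  · filter_upwards [hS] with m hSm y hy
    rw [Metric.mem_ball, Real.dist_eq] at hy
    have hy' : y₀ / 2 < y := by have := (abs_lt.mp hy).1; linarith
    rw [abs_mul, abs_of_pos (Real.exp_pos _), abs_neg, abs_of_nonneg (by positivity)]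
    have h1 : Real.exp (-(a * y * (p m + q m)))
        ≤ Real.exp (-(2 * (a * (y₀ / 4) * (p m + q m)))) := by
      apply Real.exp_le_exp.mpr
      have : a * (y₀ / 2) * (p m + q m) ≤ a * y * (p m + q m) := by
        apply mul_le_mul_of_nonneg_right _ hSm
        exact mul_le_mul_of_nonneg_left hy'.le ha.le
      linarith
    calc a * (p m + q m) * Real.exp (-(a * y * (p m + q m)))
        ≤ a * (p m + q m) * Real.exp (-(2 * (a * (y₀ / 4) * (p m + q m)))) :=
          mul_le_mul_of_nonneg_left h1 (by positivity)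
      _ = _ := by ring
  · intro m y _
    exact hasDerivAt_k0_144b a (p m + q m) y

/-- Second derivative of `J`. -/
theorem hasDerivAt_J1_144b (ha : 0 < a) (hA : AEStronglyMeasurable A μ) (hp : AEMeasurable p μ)
    (hq : AEMeasurable q μ) (hpq : ∀ᵐ m ∂μ, 0 < p m ∧ 0 < q m ∧ p m * q m = 1)
    (hint : ∀ y : ℝ, 0 < y →
      Integrable (fun m => A m * ((Real.exp (-(a * y * (p m + q m))) : ℝ) : ℂ)) μ)
    {y₀ : ℝ} (hy₀ : 0 < y₀) :
    Integrable (fun m => A m
      * (((a * (p m + q m)) ^ 2 * Real.exp (-(a * y₀ * (p m + q m))) : ℝ) : ℂ)) μ ∧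
    HasDerivAt (fun y : ℝ => ∫ m, A m
        * ((-(a * (p m + q m)) * Real.exp (-(a * y * (p m + q m))) : ℝ) : ℂ) ∂μ)
      (∫ m, A m * (((a * (p m + q m)) ^ 2 * Real.exp (-(a * y₀ * (p m + q m))) : ℝ) : ℂ) ∂μ)
      y₀ := by
  have hS : ∀ᵐ m ∂μ, 0 ≤ p m + q m := hpq.mono fun m h => by linarith [h.1, h.2.1]
  refine hasDerivAt_integral_kernel144b (μ := μ) hA (S := fun m => p m + q m) hS
    (k := fun y m => -(a * (p m + q m)) * Real.exp (-(a * y * (p m + q m))))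
    (k' := fun y m => (a * (p m + q m)) ^ 2 * Real.exp (-(a * y * (p m + q m))))
    (t₀ := y₀) (δ := y₀ / 2) (by positivity) (fun y => aemeas_k1_144b hp hq y)
    (aemeas_k2_144b hp hq y₀) (hasDerivAt_J_144b ha hA hp hq hpq hint hy₀).1
    (c₁ := 0) (c₂ := a ^ 2) (ε := a * (y₀ / 4))
    (by positivity) le_rfl (by positivity) (hint (y₀ / 4) (by positivity)) ?_ ?_
  · filter_upwards [hS] with m hSm y hy
    rw [Metric.mem_ball, Real.dist_eq] at hy
    have hy' : y₀ / 2 < y := by have := (abs_lt.mp hy).1; linarith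
    rw [abs_mul, abs_of_pos (Real.exp_pos _), abs_of_nonneg (by positivity)]
    have h1 : Real.exp (-(a * y * (p m + q m)))
        ≤ Real.exp (-(2 * (a * (y₀ / 4) * (p m + q m)))) := by
      apply Real.exp_le_exp.mpr
      have : a * (y₀ / 2) * (p m + q m) ≤ a * y * (p m + q m) := by
        apply mul_le_mul_of_nonneg_right _ hSm
        exact mul_le_mul_of_nonneg_left hy'.le ha.le
      linarith
    calc (a * (p m + q m)) ^ 2 * Real.exp (-(a * y * (p m + q m)))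
        ≤ (a * (p m + q m)) ^ 2 * Real.exp (-(2 * (a * (y₀ / 4) * (p m + q m)))) :=
          mul_le_mul_of_nonneg_left h1 (by positivity)
      _ = _ := by ring
  · intro m y _
    exact hasDerivAt_k1_144b a (p m + q m) y

/-- Integrability of the shifted kernel. -/
theorem integrable_g0_144b (ha : 0 < a) (hA : AEStronglyMeasurable A μ) (hp : AEMeasurable p μ)
    (hq : AEMeasurable q μ) (hpq : ∀ᵐ m ∂μ, 0 < p m ∧ 0 < q m ∧ p m * q m = 1)
    (hint : ∀ y : ℝ, 0 < y →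
      Integrable (fun m => A m * ((Real.exp (-(a * y * (p m + q m))) : ℝ) : ℂ)) μ)
    {y : ℝ} (hy : 0 < y) {s : ℝ} (hs : |s| < 1 / 2) :
    Integrable (fun m => A m * ((g0_144b a y (p m) (q m) s : ℝ) : ℂ)) μ := by
  have hB := hint (y / 3) (by positivity)
  refine Integrable.mono' hB.norm
    (hA.mul (Complex.measurable_ofReal.comp_aemeasurable
      (aemeas_g0_144b hp hq y s)).aestronglyMeasurable) ?_
  filter_upwards [hpq] with m hm
  have h := g0_bound144b ha hy hm.1 hm.2.1 hs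
  rw [norm_mul, norm_mul, Complex.norm_real, Complex.norm_real, Real.norm_eq_abs,
    Real.norm_eq_abs, abs_of_pos (Real.exp_pos (-(a * (y / 3) * (p m + q m))))]
  apply mul_le_mul_of_nonneg_left _ (norm_nonneg _)
  refine h.trans (le_of_eq ?_)
  congr 1
  ring

/-- First derivative in `s`. -/
theorem hasDerivAt_G_144b (ha : 0 < a) (hA : AEStronglyMeasurable A μ) (hp : AEMeasurable p μ)
    (hq : AEMeasurable q μ) (hpq : ∀ᵐ m ∂μ, 0 < p m ∧ 0 < q m ∧ p m * q m = 1)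
    (hint : ∀ y : ℝ, 0 < y →
      Integrable (fun m => A m * ((Real.exp (-(a * y * (p m + q m))) : ℝ) : ℂ)) μ)
    {y : ℝ} (hy : 0 < y) {s₀ : ℝ} (hs₀ : |s₀| < 1 / 4) :
    Integrable (fun m => A m * ((g1_144b a y (p m) (q m) s₀ : ℝ) : ℂ)) μ ∧
    HasDerivAt (fun s : ℝ => ∫ m, A m * ((g0_144b a y (p m) (q m) s : ℝ) : ℂ) ∂μ)
      (∫ m, A m * ((g1_144b a y (p m) (q m) s₀ : ℝ) : ℂ) ∂μ) s₀ := by
  have hS : ∀ᵐ m ∂μ, 0 ≤ p m + q m := hpq.mono fun m h => by linarith [h.1, h.2.1]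
  refine hasDerivAt_integral_kernel144b (μ := μ) hA (S := fun m => p m + q m) hS
    (k := fun s m => g0_144b a y (p m) (q m) s)
    (k' := fun s m => g1_144b a y (p m) (q m) s)
    (t₀ := s₀) (δ := 1 / 4) (by norm_num) (fun s => aemeas_g0_144b hp hq y s)
    (aemeas_g1_144b hp hq y s₀)
    (integrable_g0_144b ha hA hp hq hpq hint hy (hs₀.trans (by norm_num)))
    (c₁ := a * y * 6) (c₂ := 0) (ε := a * (y / 6))
    (by positivity) (by positivity) le_rfl (hint (y / 6) (by positivity)) ?_ ?_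
  · filter_upwards [hpq] with m hm s hs
    rw [Metric.mem_ball, Real.dist_eq] at hs
    have hs' : |s| < 1 / 2 := by
      have h1 := abs_lt.mp hs
      have h2 := abs_lt.mp hs₀
      rw [abs_lt]
      constructor <;> linarith
    exact g1_bound144b ha hy hm.1 hm.2.1 hs'
  · intro m s _
    exact hasDerivAt_g0_144b a y (p m) (q m) s

/-- Second derivative in `s` at `0`. -/
theorem hasDerivAt_G1_144b (ha : 0 < a) (hA : AEStronglyMeasurable A μ) (hp : AEMeasurable p μ)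
    (hq : AEMeasurable q μ) (hpq : ∀ᵐ m ∂μ, 0 < p m ∧ 0 < q m ∧ p m * q m = 1)
    (hint : ∀ y : ℝ, 0 < y →
      Integrable (fun m => A m * ((Real.exp (-(a * y * (p m + q m))) : ℝ) : ℂ)) μ)
    {y : ℝ} (hy : 0 < y) :
    HasDerivAt (fun s : ℝ => ∫ m, A m * ((g1_144b a y (p m) (q m) s : ℝ) : ℂ) ∂μ)
      (∫ m, A m * ((g2_144b a y (p m) (q m) 0 : ℝ) : ℂ) ∂μ) 0 := by
  have hS : ∀ᵐ m ∂μ, 0 ≤ p m + q m := hpq.mono fun m h => by linarith [h.1, h.2.1]
  refine (hasDerivAt_integral_kernel144b (μ := μ) hA (S := fun m => p m + q m) hS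
    (k := fun s m => g1_144b a y (p m) (q m) s)
    (k' := fun s m => g2_144b a y (p m) (q m) s)
    (t₀ := 0) (δ := 1 / 4) (by norm_num) (fun s => aemeas_g1_144b hp hq y s)
    (aemeas_g2_144b hp hq y 0)
    (hasDerivAt_G_144b ha hA hp hq hpq hint hy (s₀ := 0) (by norm_num)).1
    (c₁ := a * y * 12) (c₂ := (a * y * 6) ^ 2) (ε := a * (y / 6))
    (by positivity) (by positivity) (by positivity) (hint (y / 6) (by positivity)) ?_ ?_).2
  · filter_upwards [hpq] with m hm s hs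
    rw [Metric.mem_ball, Real.dist_eq, sub_zero] at hs
    exact g2_bound144b ha hy hm.1 hm.2.1 (hs.trans (by norm_num))
  · intro m s _
    exact hasDerivAt_g1_144b a y (p m) (q m) s

/-- The pointwise identity behind the Bessel equation (`p q = 1`). -/
theorem g2_zero_144b (a y p q : ℝ) (hpq : p * q = 1) :
    g2_144b a y p q 0
      = (4 * y) * (y * ((a * (p + q)) ^ 2 * Real.exp (-(a * y * (p + q))))
          + (-(a * (p + q)) * Real.exp (-(a * y * (p + q))))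
          - (4 * a ^ 2 * y) * Real.exp (-(a * y * (p + q)))) := by
  unfold g2_144b
  simp only [mul_zero, neg_zero, Real.exp_zero, mul_one, one_mul]
  linear_combination (-16 * Real.exp (-(a * y * (p + q))) * a ^ 2 * y ^ 2) * hpq

/-- **The Bessel equation, real-exponential form.** -/
theorem bessel_core144b (ha : 0 < a) (hA : AEStronglyMeasurable A μ) (hp : AEMeasurable p μ)
    (hq : AEMeasurable q μ) (hpq : ∀ᵐ m ∂μ, 0 < p m ∧ 0 < q m ∧ p m * q m = 1)
    (hint : ∀ y : ℝ, 0 < y →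
      Integrable (fun m => A m * ((Real.exp (-(a * y * (p m + q m))) : ℝ) : ℂ)) μ)
    (hinv : ∀ y : ℝ, 0 < y → ∀ s : ℝ,
      ∫ m, A m * ((g0_144b a y (p m) (q m) s : ℝ) : ℂ) ∂μ
        = ∫ m, A m * ((Real.exp (-(a * y * (p m + q m))) : ℝ) : ℂ) ∂μ)
    {y : ℝ} (hy : 0 < y) :
    (y : ℂ) * (∫ m, A m
        * (((a * (p m + q m)) ^ 2 * Real.exp (-(a * y * (p m + q m))) : ℝ) : ℂ) ∂μ)
      + (∫ m, A m * ((-(a * (p m + q m)) * Real.exp (-(a * y * (p m + q m))) : ℝ) : ℂ) ∂μ)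
      - ((4 * a ^ 2 * y : ℝ) : ℂ)
        * (∫ m, A m * ((Real.exp (-(a * y * (p m + q m))) : ℝ) : ℂ) ∂μ) = 0 := by
  -- `G' = 0` near `0`
  have hG1 : ∀ s₀ : ℝ, |s₀| < 1 / 4 →
      (∫ m, A m * ((g1_144b a y (p m) (q m) s₀ : ℝ) : ℂ) ∂μ) = 0 := by
    intro s₀ hs₀
    have h1 := (hasDerivAt_G_144b ha hA hp hq hpq hint hy hs₀).2
    have h2 : (fun s : ℝ => ∫ m, A m * ((g0_144b a y (p m) (q m) s : ℝ) : ℂ) ∂μ)
        = fun _ => ∫ m, A m * ((Real.exp (-(a * y * (p m + q m))) : ℝ) : ℂ) ∂μ := by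
      funext s
      exact hinv y hy s
    rw [h2] at h1
    exact h1.unique (hasDerivAt_const s₀ _)
  -- `G''(0) = 0`
  have hG2 : (∫ m, A m * ((g2_144b a y (p m) (q m) 0 : ℝ) : ℂ) ∂μ) = 0 := by
    have h1 := hasDerivAt_G1_144b ha hA hp hq hpq hint hy
    have h2 : (fun s : ℝ => ∫ m, A m * ((g1_144b a y (p m) (q m) s : ℝ) : ℂ) ∂μ)
        =ᶠ[nhds 0] fun _ => (0 : ℂ) := by
      have hball : Metric.ball (0 : ℝ) (1 / 4) ∈ nhds (0 : ℝ) :=
        Metric.ball_mem_nhds 0 (by norm_num)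
      filter_upwards [hball] with s hs
      rw [Metric.mem_ball, Real.dist_eq, sub_zero] at hs
      exact hG1 s hs
    have h3 : HasDerivAt (fun s : ℝ => ∫ m, A m * ((g1_144b a y (p m) (q m) s : ℝ) : ℂ) ∂μ)
        (0 : ℂ) 0 := (hasDerivAt_const (0 : ℝ) (0 : ℂ)).congr_of_eventuallyEq h2
    exact h1.unique h3
  -- linearity
  have hI0 := hint y hy
  have hI1 := (hasDerivAt_J_144b ha hA hp hq hpq hint hy).1
  have hI2 := (hasDerivAt_J1_144b ha hA hp hq hpq hint hy).1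
  have e : (∫ m, A m * ((g2_144b a y (p m) (q m) 0 : ℝ) : ℂ) ∂μ)
      = ∫ m, ((4 * y : ℝ) : ℂ) * (((y : ℂ) * (A m
          * (((a * (p m + q m)) ^ 2 * Real.exp (-(a * y * (p m + q m))) : ℝ) : ℂ))
        + A m * ((-(a * (p m + q m)) * Real.exp (-(a * y * (p m + q m))) : ℝ) : ℂ))
        - ((4 * a ^ 2 * y : ℝ) : ℂ)
          * (A m * ((Real.exp (-(a * y * (p m + q m))) : ℝ) : ℂ))) ∂μ := by
    apply integral_congr_ae
    filter_upwards [hpq] with m hm
    rw [g2_zero_144b a y (p m) (q m) hm.2.2]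
    push_cast
    ring
  have i2 : Integrable (fun m => (y : ℂ) * (A m
      * (((a * (p m + q m)) ^ 2 * Real.exp (-(a * y * (p m + q m))) : ℝ) : ℂ))) μ :=
    hI2.const_mul _
  have i21 : Integrable (fun m => (y : ℂ) * (A m
        * (((a * (p m + q m)) ^ 2 * Real.exp (-(a * y * (p m + q m))) : ℝ) : ℂ))
      + A m * ((-(a * (p m + q m)) * Real.exp (-(a * y * (p m + q m))) : ℝ) : ℂ)) μ :=
    i2.add hI1
  have i0 : Integrable (fun m => ((4 * a ^ 2 * y : ℝ) : ℂ)
      * (A m * ((Real.exp (-(a * y * (p m + q m))) : ℝ) : ℂ))) μ := hI0.const_mul _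
  rw [e, integral_const_mul, integral_sub i21 i0, integral_add i2 hI1, integral_const_mul,
    integral_const_mul] at hG2
  have h4 : ((4 * y : ℝ) : ℂ) ≠ 0 := by
    rw [Ne, Complex.ofReal_eq_zero]
    positivity
  exact (mul_eq_zero.mp hG2).resolve_left h4

end Main

end Fermat.Agent.LT.A2.H144

end
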