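import Fermat.Agent.LT.A2.H416.MeanSpec
import Fermat.Agent.LT.A2.H144.BesselCore

/-!
# Row LT, tower A2, leaf A2.03.7.1 `BesselInvC` (helper144) -- OFF-MAIN

Registry row 1126.  `besselInvC144 : H416.BesselInvC`, VERBATIM the Prop of
`LT/A2/H416/MeanSpec.lean` (helper416, byte-identical copy).  The proof is the Mathlib-only core
`LT/A2/H144/BesselCore.lean` (`bessel_core144b`, `hasDerivAt_J_144b`, `hasDerivAt_J1_144b`),
applied with `r = e^s`.
-/

set_option autoImplicit false

open MeasureTheory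

noncomputable section

namespace Fermat.Agent.LT.A2.H144

theorem cexp_neg_ofReal144b (x : ℝ) :
    Complex.exp (-((x : ℝ) : ℂ)) = ((Real.exp (-x) : ℝ) : ℂ) := by
  rw [Complex.ofReal_exp, Complex.ofReal_neg]

/-- **Leaf A2.03.7.1** (`BesselInvC`, VERBATIM of `H416/MeanSpec.lean`). -/
theorem besselInvC144 : H416.BesselInvC := by
  intro X _ μ a ha A p q hA hp hq hpq hint hinv
  simp only [cexp_neg_ofReal144b] at hint hinv ⊢
  have hinv' : ∀ y : ℝ, 0 < y → ∀ s : ℝ,
      ∫ m, A m * ((g0_144b a y (p m) (q m) s : ℝ) : ℂ) ∂μ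
        = ∫ m, A m * ((Real.exp (-(a * y * (p m + q m))) : ℝ) : ℂ) ∂μ := by
    intro y hy s
    have h := hinv y hy (Real.exp s) (Real.exp_pos s)
    have e1 : (Real.exp s)⁻¹ ^ 2 = Real.exp (-(2 * s)) := by
      rw [← Real.exp_neg, ← Real.exp_nat_mul]
      congr 1
      push_cast
      ring
    have e2 : (Real.exp s) ^ 2 = Real.exp (2 * s) := by
      rw [← Real.exp_nat_mul]
      congr 1
    simp only [e1, e2] at h
    exact h
  refine ⟨fun y => ∫ m, A m
      * ((-(a * (p m + q m)) * Real.exp (-(a * y * (p m + q m))) : ℝ) : ℂ) ∂μ,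
    fun y => ∫ m, A m
      * (((a * (p m + q m)) ^ 2 * Real.exp (-(a * y * (p m + q m))) : ℝ) : ℂ) ∂μ, ?_, ?_, ?_⟩
  · intro y hy
    exact (hasDerivAt_J_144b ha hA hp hq hpq hint hy).2
  · intro y hy
    exact (hasDerivAt_J1_144b ha hA hp hq hpq hint hy).2
  · intro y hy
    exact bessel_core144b ha hA hp hq hpq hint hinv' hy

end Fermat.Agent.LT.A2.H144

end
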