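import Mathlib
import Fermat.Agent.LT.A2.H38.ArtinSeedSpec

/-!
# Row LT, tower A2, branch GALSEED, leaf A2.01.07 `CharRhoC` (helper144), OFF-MAIN

`charRhoC : Fermat.Agent.LT.A2.H38.CharRhoC` (VERBATIM, `LT/A2/H38/ArtinSeedSpec.lean`,
origin/helper38@fd6f38a61): under the hypotheses of the frozen S47 the character
`χ_ρ = θ ∘ ρ` of `G_L = ρ⁻¹(C4)` exists, has finite order (it is trivial on `ker ρ`, whose fixed
field is a number field) and takes the values `thetaVal (ρ σ)`.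

Route: `C4 = {1, g0, g0², g0³}`, `thetaVal (g0 ^ n) = i ^ n`, so `thetaVal` is a character of
`C4`; `ρ⁻¹(C4)` is closed (`ρ` continuous, `GL₂(𝔽₃)` discrete), so by the infinite Galois
correspondence the elements of `G_ℚ` fixing `L` are exactly `ρ⁻¹(C4)`; `ker ρ` is open, so its
fixed field is finite over `ℚ` (`InfiniteGalois.isOpen_iff_finite`).
-/

set_option autoImplicit false

open scoped MatrixGroups

noncomputable section

namespace Fermat.Agent.LT.A2.H144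

open Fermat.Agent.LT.A2.H38 Fermat.Agent.LT

local notation "Γℚ" => (AlgebraicClosure ℚ ≃ₐ[ℚ] AlgebraicClosure ℚ)

/-! ## The character `θ` of `C4` -/

theorem g0_ne_one : g0 ≠ 1 := by
  intro h
  have := congrArg (fun u : GL (Fin 2) (ZMod 3) => (u : Matrix (Fin 2) (Fin 2) (ZMod 3)) 0 0) h
  revert this
  decide

theorem g0_sq_ne_one : g0 ^ 2 ≠ 1 := by
  intro h
  have := congrArg (fun u : GL (Fin 2) (ZMod 3) => (u : Matrix (Fin 2) (Fin 2) (ZMod 3)) 0 0) h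
  revert this
  decide

theorem g0_cube_ne_one : g0 ^ 3 ≠ 1 := by
  intro h
  have := congrArg (fun u : GL (Fin 2) (ZMod 3) => (u : Matrix (Fin 2) (Fin 2) (ZMod 3)) 0 0) h
  revert this
  decide

theorem g0_sq_ne_g0 : g0 ^ 2 ≠ g0 := by
  intro h
  have := congrArg (fun u : GL (Fin 2) (ZMod 3) => (u : Matrix (Fin 2) (Fin 2) (ZMod 3)) 0 0) h
  revert this
  decide

theorem g0_cube_ne_g0 : g0 ^ 3 ≠ g0 := by
  intro h
  have := congrArg (fun u : GL (Fin 2) (ZMod 3) => (u : Matrix (Fin 2) (Fin 2) (ZMod 3)) 0 1) h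
  revert this
  decide

theorem g0_cube_ne_g0_sq : g0 ^ 3 ≠ g0 ^ 2 := by
  intro h
  have := congrArg (fun u : GL (Fin 2) (ZMod 3) => (u : Matrix (Fin 2) (Fin 2) (ZMod 3)) 0 0) h
  revert this
  decide

theorem thetaVal_one : thetaVal 1 = 1 := by
  simp [thetaVal]

theorem thetaVal_g0 : thetaVal g0 = Complex.I := by
  simp [thetaVal, g0_ne_one]

theorem thetaVal_g0_sq : thetaVal (g0 ^ 2) = -1 := by
  simp [thetaVal, g0_sq_ne_one, g0_sq_ne_g0]

theorem thetaVal_g0_cube : thetaVal (g0 ^ 3) = -Complex.I := by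
  simp [thetaVal, g0_cube_ne_one, g0_cube_ne_g0, g0_cube_ne_g0_sq]

theorem g0_pow_mod (n : ℕ) : g0 ^ n = g0 ^ (n % 4) := by
  conv_lhs => rw [← Nat.div_add_mod n 4, pow_add, pow_mul, g0_pow_four, one_pow, one_mul]

theorem I_pow_mod (n : ℕ) : Complex.I ^ n = Complex.I ^ (n % 4) := by
  conv_lhs => rw [← Nat.div_add_mod n 4, pow_add, pow_mul, Complex.I_pow_four, one_pow, one_mul]

/-- `θ (g0 ^ n) = i ^ n`. -/
theorem thetaVal_g0_pow (n : ℕ) : thetaVal (g0 ^ n) = Complex.I ^ n := by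
  rw [g0_pow_mod n, I_pow_mod n]
  have h : n % 4 < 4 := Nat.mod_lt _ (by norm_num)
  generalize n % 4 = r at h
  interval_cases r
  · simp [thetaVal_one]
  · simp [thetaVal_g0]
  · rw [thetaVal_g0_sq, Complex.I_sq]
  · rw [thetaVal_g0_cube, pow_succ, Complex.I_sq]; ring

theorem exists_pow_of_mem_C4 {h : GL (Fin 2) (ZMod 3)} (hh : h ∈ C4) : ∃ n : ℕ, g0 ^ n = h := by
  have : h ∈ Submonoid.powers g0 := mem_powers_iff_mem_zpowers.mpr hh
  exact Submonoid.mem_powers_iff _ _ |>.mp this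

theorem thetaVal_ne_zero {h : GL (Fin 2) (ZMod 3)} (hh : h ∈ C4) : thetaVal h ≠ 0 := by
  obtain ⟨n, rfl⟩ := exists_pow_of_mem_C4 hh
  rw [thetaVal_g0_pow]
  exact pow_ne_zero _ Complex.I_ne_zero

theorem thetaVal_mul {x y : GL (Fin 2) (ZMod 3)} (hx : x ∈ C4) (hy : y ∈ C4) :
    thetaVal (x * y) = thetaVal x * thetaVal y := by
  obtain ⟨a, rfl⟩ := exists_pow_of_mem_C4 hx
  obtain ⟨b, rfl⟩ := exists_pow_of_mem_C4 hy
  rw [← pow_add, thetaVal_g0_pow, thetaVal_g0_pow, thetaVal_g0_pow, pow_add]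

/-- The character `θ : C4 → ℂˣ`, `g0 ^ n ↦ i ^ n`. -/
def thetaHom : ↥C4 →* ℂˣ where
  toFun x := Units.mk0 (thetaVal (x : GL (Fin 2) (ZMod 3))) (thetaVal_ne_zero x.2)
  map_one' := Units.ext (by simp [thetaVal_one])
  map_mul' x y := Units.ext (by simp [thetaVal_mul x.2 y.2])

@[simp] theorem thetaHom_val (x : ↥C4) :
    ((thetaHom x : ℂˣ) : ℂ) = thetaVal (x : GL (Fin 2) (ZMod 3)) := rfl

/-! ## `G_L = ρ⁻¹(C4)` -/

theorem isClosed_subC4 {ρ : Γℚ →* GL (Fin 2) (ZMod 3)} (hρ : Continuous ρ) :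
    IsClosed ((subC4 ρ : Subgroup Γℚ) : Set Γℚ) := by
  have h : IsClosed ((C4 : Subgroup (GL (Fin 2) (ZMod 3))) : Set (GL (Fin 2) (ZMod 3))) :=
    isClosed_discrete _
  exact h.preimage hρ

theorem galOf_jL_eq (ρ : Γℚ →* GL (Fin 2) (ZMod 3)) :
    CFT.galOf (jL ρ) = (fieldL ρ).fixingSubgroup := by
  ext σ
  rw [IntermediateField.mem_fixingSubgroup_iff]
  constructor
  · intro h x hx
    exact h ⟨x, hx⟩
  · intro h x
    exact h x.1 x.2

theorem galOf_jL_eq_subC4 {ρ : Γℚ →* GL (Fin 2) (ZMod 3)} (hρ : Continuous ρ) :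
    CFT.galOf (jL ρ) = subC4 ρ := by
  rw [galOf_jL_eq]
  exact InfiniteGalois.fixingSubgroup_fixedField ⟨subC4 ρ, isClosed_subC4 hρ⟩

theorem map_mem_C4 {ρ : Γℚ →* GL (Fin 2) (ZMod 3)} (hρ : Continuous ρ)
    (σ : ↥(CFT.galOf (jL ρ))) : ρ (σ : Γℚ) ∈ C4 := by
  have h : (σ : Γℚ) ∈ subC4 ρ := by
    rw [← galOf_jL_eq_subC4 hρ]
    exact σ.2
  exact Subgroup.mem_comap.mp h

/-! ## The fixed field of `ker ρ` is a number field -/

theorem isOpen_ker {ρ : Γℚ →* GL (Fin 2) (ZMod 3)} (hρ : Continuous ρ) :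
    IsOpen ((ρ.ker : Subgroup Γℚ) : Set Γℚ) := by
  have h : IsOpen ({1} : Set (GL (Fin 2) (ZMod 3))) := isOpen_discrete _
  have := h.preimage hρ
  have e : ((ρ.ker : Subgroup Γℚ) : Set Γℚ) = ρ ⁻¹' {1} := by
    ext σ
    simp [MonoidHom.mem_ker]
  rw [e]; exact this

theorem isClosed_ker {ρ : Γℚ →* GL (Fin 2) (ZMod 3)} (hρ : Continuous ρ) :
    IsClosed ((ρ.ker : Subgroup Γℚ) : Set Γℚ) := by
  have h : IsClosed ({1} : Set (GL (Fin 2) (ZMod 3))) := isClosed_discrete _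
  have := h.preimage hρ
  have e : ((ρ.ker : Subgroup Γℚ) : Set Γℚ) = ρ ⁻¹' {1} := by
    ext σ
    simp [MonoidHom.mem_ker]
  rw [e]; exact this

theorem fixingSubgroup_fixedField_ker {ρ : Γℚ →* GL (Fin 2) (ZMod 3)} (hρ : Continuous ρ) :
    (IntermediateField.fixedField ρ.ker).fixingSubgroup = ρ.ker :=
  InfiniteGalois.fixingSubgroup_fixedField ⟨ρ.ker, isClosed_ker hρ⟩

theorem finiteDimensional_fixedField_ker {ρ : Γℚ →* GL (Fin 2) (ZMod 3)} (hρ : Continuous ρ) :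
    FiniteDimensional ℚ (IntermediateField.fixedField ρ.ker) := by
  rw [← InfiniteGalois.isOpen_iff_finite, fixingSubgroup_fixedField_ker hρ]
  exact isOpen_ker hρ

/-! ## The leaf -/

/-- The character `χ_ρ = θ ∘ ρ` of `G_L`. -/
def chiRho {ρ : Γℚ →* GL (Fin 2) (ZMod 3)} (hρ : Continuous ρ) :
    ↥(CFT.galOf (jL ρ)) →* ℂˣ :=
  thetaHom.comp ((ρ.comp (CFT.galOf (jL ρ)).subtype).codRestrict C4 (map_mem_C4 hρ))

theorem chiRho_val {ρ : Γℚ →* GL (Fin 2) (ZMod 3)} (hρ : Continuous ρ)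
    (σ : ↥(CFT.galOf (jL ρ))) : ((chiRho hρ σ : ℂˣ) : ℂ) = thetaVal (ρ (σ : Γℚ)) := rfl

/-- **Leaf A2.01.07 `CharRhoC`.** -/
theorem charRhoC : CharRhoC := by
  intro ρ Ψ hyp
  refine ⟨chiRho hyp.cont, ⟨IntermediateField.fixedField ρ.ker,
    finiteDimensional_fixedField_ker hyp.cont, ?_⟩, chiRho_val hyp.cont⟩
  intro σ hσ
  rw [fixingSubgroup_fixedField_ker hyp.cont] at hσ
  have h1 : ρ (σ : Γℚ) = 1 := MonoidHom.mem_ker.mp hσ
  apply Units.ext
  rw [chiRho_val, h1, thetaVal_one]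
  rfl

end Fermat.Agent.LT.A2.H144

end
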