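import Fermat.Agent.LT.A2.H144.GaussNormCore
import Fermat.Agent.LT.H767.LocalCompact

/-!
# Row LT, tower A2, leaf A2.03.1.1.06.06 `LF54.LeafGaussNorm` -- PROVED (helper144)

OFF-MAIN.  `leafGaussNorm144 : LF54.LeafGaussNorm`, VERBATIM, unconditional.

`‖N‖ G(a N) = G(a)` for the nonzero values `N = Q(x, y)` of the norm form: the identity
`‖N‖ (G(a N) I') = G(a) I'` of `GaussNormCore.lean` (the Gauss identity for `Φ'` and for
`Φ' ∘ m`, `m` the multiplication by `x + y ω`, and the change of variables) with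
`Φ'` = the indicator function of `Λ × Λ`, `Λ` a small closed ball of `K_v` (compact and open),
`ξ = 0`: then `I' = μ(Λ)² ≠ 0`.

Input from the tree: `H767.compactSpace_integer_adicCompletion` (`𝒪_v` is compact; Mathlib only),
a byte-identical copy of the file of helper767 as vendored by helper54.
-/

set_option autoImplicit false

open IsDedekindDomain NumberField MeasureTheory
open scoped Topology

noncomputable section

namespace Fermat.Agent.LT.A2.H144

open Fermat.Agent.LT.A2 Fermat.Agent.LT.A2.WX467 Fermat.Agent.LT.A2.LF54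

section Measure

variable {k : Type} [NormedField k]

/-- The indicator function of `Λ × Λ` is Schwartz--Bruhat for `Λ` compact and open. -/
theorem isSB_indicator144d (Λ : Set k) (hΛc : IsCompact Λ) (hΛo : IsOpen Λ) :
    IsSB (Set.indicator (Λ ×ˢ Λ) (fun _ : k × k => (1 : ℂ))) := by
  have hcl : IsClosed (Λ ×ˢ Λ) := hΛc.isClosed.prod hΛc.isClosed
  have hop : IsOpen (Λ ×ˢ Λ) := hΛo.prod hΛo
  refine ⟨?_, ?_⟩
  · rw [IsLocallyConstant.iff_eventually_eq]
    intro z
    by_cases hz : z ∈ Λ ×ˢ Λ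
    · filter_upwards [hop.mem_nhds hz] with w hw
      rw [Set.indicator_of_mem hw, Set.indicator_of_mem hz]
    · have hz' : z ∈ (Λ ×ˢ Λ)ᶜ := hz
      filter_upwards [hcl.isOpen_compl.mem_nhds hz'] with w hw
      rw [Set.indicator_of_notMem hw, Set.indicator_of_notMem hz]
  · refine HasCompactSupport.intro (hΛc.prod hΛc) ?_
    intro z hz
    exact Set.indicator_of_notMem hz _

/-- The integral of the indicator function of `Λ × Λ` is not zero. -/
theorem intL_indicator_ne144d [ProperSpace k] (μ : @Measure k (borel k)) (hμ : IsHaarL μ)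
    (Λ : Set k)
    (hΛc : IsCompact Λ) (hΛo : IsOpen Λ) (hΛne : Λ.Nonempty) :
    intL μ (Set.indicator (Λ ×ˢ Λ) (fun _ : k × k => (1 : ℂ))) ≠ 0 := by
  let _ : MeasurableSpace k := borel k
  have : BorelSpace k := ⟨rfl⟩
  have : IsFiniteMeasureOnCompacts μ := ⟨fun K hK => hμ.2.1 K hK⟩
  have : SigmaFinite μ := inferInstance
  have hm : MeasurableSet Λ := hΛc.isClosed.measurableSet
  have hmm : MeasurableSet (Λ ×ˢ Λ) := hm.prod hm
  have hpos : 0 < μ Λ := hμ.2.2 Λ hΛo hΛne
  have hfin : μ Λ < ⊤ := hμ.2.1 Λ hΛc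
  unfold intL
  rw [integral_indicator_const _ hmm, measureReal_def, Measure.prod_prod, ENNReal.toReal_mul]
  have h1 : (μ Λ).toReal ≠ 0 := (ENNReal.toReal_pos hpos.ne' hfin.ne).ne'
  simp [h1]

end Measure

/-- **A2.03.1.1.06.06 GAUSS-NORM**, VERBATIM. -/
theorem leafGaussNorm144 : LF54.LeafGaussNorm := by
  intro K _ _ v t n ψ μ c G hctx hF a ha x y hN
  have hcpt : CompactSpace (Valued.integer (v.adicCompletion K)) :=
    H767.compactSpace_integer_adicCompletion K v
  have hproper : ProperSpace (v.adicCompletion K) :=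
    Valued.integer.properSpace_iff_compactSpace_integer.mpr hcpt
  have hψlc : IsLocallyConstant ψ := char_locConst144d ψ hctx.char
  obtain ⟨ε, hε, htriv⟩ := char_trivial_ball144d ψ hctx.char
  -- the function `g z = -Q(z + m 0) / (a N)` is small near `0`
  set g : v.adicCompletion K × v.adicCompletion K → v.adicCompletion K :=
    fun z => -(qfL t n (z + actL (torMat t n x y) 0)) / (a * qfL t n (x, y)) with hg
  have hgc : Continuous g := by
    have h := continuous_qfL144d t n
    rw [hg]
    fun_prop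
  have hg0 : g 0 = 0 := by
    rw [hg]
    show -(qfL t n (0 + actL (torMat t n x y) 0)) / (a * qfL t n (x, y)) = 0
    rw [actL_zero144d, add_zero, qfL_zero144d, neg_zero, zero_div]
  have hnb : g ⁻¹' Metric.ball 0 ε ∈ 𝓝 (0 : v.adicCompletion K × v.adicCompletion K) := by
    apply hgc.continuousAt.preimage_mem_nhds
    rw [hg0]
    exact Metric.ball_mem_nhds _ hε
  obtain ⟨δ, hδ, hball⟩ := Metric.mem_nhds_iff.mp hnb
  -- a small nonzero element
  obtain ⟨c0, hc0pos, hc0⟩ : ∃ c0 : v.adicCompletion K, 0 < ‖c0‖ ∧ ‖c0‖ < δ := by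
    exact @NormedField.exists_norm_lt (v.adicCompletion K)
      (Valued.toNontriviallyNormedField (v.adicCompletion K) (WithZero (Multiplicative ℤ)))
      δ hδ
  -- the lattice
  set Λ : Set (v.adicCompletion K) := Metric.closedBall 0 ‖c0‖ with hΛ
  have hΛc : IsCompact Λ := isCompact_closedBall _ _
  have hΛo : IsOpen Λ := IsUltrametricDist.isOpen_closedBall _ hc0pos.ne'
  have hΛne : Λ.Nonempty := ⟨0, Metric.mem_closedBall_self hc0pos.le⟩
  have hone : ∀ z ∈ Λ ×ˢ Λ, ψ (g z) = 1 := by
    intro z hz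
    apply htriv
    have hz1 : ‖z.1‖ ≤ ‖c0‖ := by simpa [hΛ] using hz.1
    have hz2 : ‖z.2‖ ≤ ‖c0‖ := by simpa [hΛ] using hz.2
    have hzb : z ∈ Metric.ball (0 : v.adicCompletion K × v.adicCompletion K) δ := by
      rw [Metric.mem_ball, dist_zero_right, Prod.norm_def]
      exact lt_of_le_of_lt (max_le hz1 hz2) hc0
    have := hball hzb
    rwa [Set.mem_preimage, Metric.mem_ball, dist_zero_right] at this
  -- the identity for the indicator function
  have hid := gaussNorm_identity144d t n ψ μ c G hψlc hF a ha x y hN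
    (Set.indicator (Λ ×ˢ Λ) (fun _ => (1 : ℂ))) (isSB_indicator144d Λ hΛc hΛo) 0
  have hI : intL μ (fun z => Set.indicator (Λ ×ˢ Λ) (fun _ => (1 : ℂ)) z *
      ψ (-(qfL t n (z + actL (torMat t n x y) 0)) / (a * qfL t n (x, y))))
      = intL μ (Set.indicator (Λ ×ˢ Λ) (fun _ => (1 : ℂ))) := by
    refine congrArg (intL μ) (funext fun z => ?_)
    by_cases hz : z ∈ Λ ×ˢ Λ
    · have := hone z hz
      rw [hg] at this
      rw [this, mul_one]
    · rw [Set.indicator_of_notMem hz, zero_mul]
  rw [hI] at hid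
  have hne := intL_indicator_ne144d μ hctx.haar Λ hΛc hΛo hΛne
  rw [← mul_assoc] at hid
  exact mul_right_cancel₀ hne hid

end Fermat.Agent.LT.A2.H144

end
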