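import Fermat.Agent.LT.A2.H54.LocFinSpec

/-!
# Row LT, tower A2, leaf A2.03.1.1.06.06 `LF54.LeafGaussNorm` -- the core (helper144)

OFF-MAIN.  Generic part: a normed field `k`, the binary form `Q(x, y) = x² + t x y + n y²`,
the similitude `m = torMat t n x y` (`Q(m ξ) = N Q(ξ)`, `N = Q(x, y) = det m`).

* `gaussNorm_identity144d`: for every Schwartz--Bruhat `Φ'` and every `ξ`,
  `‖N‖ * (G (a N) * I') = G a * I'`, `I' = ∫ Φ'(z) ψ(-Q(z + m ξ) / (a N)) dz`,
  from the Fourier certificate (two times the Gauss identity, three times the change of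
  variables) and the local constancy of `ψ`.
* `char_locConst144d`: a continuous unitary character of an ultrametric normed field is
  locally constant (no small subgroups in the circle).
-/

set_option autoImplicit false

open MeasureTheory
open scoped Topology

noncomputable section

namespace Fermat.Agent.LT.A2.H144

open Fermat.Agent.LT.A2 Fermat.Agent.LT.A2.WX467 Fermat.Agent.LT.A2.LF54

/-! ## A. Algebra -/

section Algebra

variable {k : Type} [Field k]

theorem actL_add144d (m : Matrix (Fin 2) (Fin 2) k) (ξ η : k × k) :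
    actL m (ξ + η) = actL m ξ + actL m η := by
  unfold actL
  ext
  · simp only [Prod.fst_add, Prod.snd_add]; ring
  · simp only [Prod.fst_add, Prod.snd_add]; ring

theorem actL_zero144d (m : Matrix (Fin 2) (Fin 2) k) : actL m (0 : k × k) = 0 := by
  unfold actL
  ext <;> simp

theorem actL_smulMat144d (c : k) (m : Matrix (Fin 2) (Fin 2) k) (ξ : k × k) :
    actL (c • m) ξ = c • actL m ξ := by
  unfold actL
  ext
  · simp only [Matrix.smul_apply, smul_eq_mul, Prod.smul_fst]; ring
  · simp only [Matrix.smul_apply, smul_eq_mul, Prod.smul_snd]; ring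

theorem qfL_smul144d (t n c : k) (ξ : k × k) : qfL t n (c • ξ) = c ^ 2 * qfL t n ξ := by
  unfold qfL
  simp only [Prod.smul_fst, Prod.smul_snd, smul_eq_mul]
  ring

theorem qfL_zero144d (t n : k) : qfL t n (0 : k × k) = 0 := by
  unfold qfL
  simp

theorem bfL_smul_left144d (t n c : k) (ξ y : k × k) :
    bfL t n (c • ξ) y = c * bfL t n ξ y := by
  unfold bfL qfL
  simp only [Prod.smul_fst, Prod.smul_snd, smul_eq_mul, Prod.fst_add, Prod.snd_add]
  ring

theorem qfL_torMat144d (t n x y : k) (ξ : k × k) :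
    qfL t n (actL (torMat t n x y) ξ) = qfL t n (x, y) * qfL t n ξ := by
  unfold qfL actL torMat
  simp only [Matrix.of_apply, Matrix.cons_val', Matrix.cons_val_zero, Matrix.cons_val_one,
    Matrix.cons_val_fin_one]
  ring

theorem bfL_torMat144d (t n x y : k) (ξ η : k × k) :
    bfL t n (actL (torMat t n x y) ξ) (actL (torMat t n x y) η)
      = qfL t n (x, y) * bfL t n ξ η := by
  unfold bfL
  rw [← actL_add144d, qfL_torMat144d, qfL_torMat144d, qfL_torMat144d]
  ring

theorem det_torMat144d (t n x y : k) : (torMat t n x y).det = qfL t n (x, y) := by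
  unfold torMat qfL
  rw [Matrix.det_fin_two_of]
  ring

theorem det_smulMat144d (c : k) (m : Matrix (Fin 2) (Fin 2) k) :
    (c • m).det = c ^ 2 * m.det := by
  rw [Matrix.det_fin_two, Matrix.det_fin_two]
  simp only [Matrix.smul_apply, smul_eq_mul]
  ring

/-- An explicit left inverse of `actL m`, `det m ≠ 0`. -/
theorem actL_adj_cancel144d (m : Matrix (Fin 2) (Fin 2) k) (hd : m.det ≠ 0) (ξ : k × k) :
    actL (m.det⁻¹ • m.adjugate) (actL m ξ) = ξ := by
  rw [actL_smulMat144d]
  have h : actL m.adjugate (actL m ξ) = m.det • ξ := by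
    rw [Matrix.adjugate_fin_two, Matrix.det_fin_two]
    unfold actL
    ext
    · simp only [Matrix.of_apply, Matrix.cons_val', Matrix.cons_val_zero, Matrix.cons_val_one,
        Matrix.cons_val_fin_one, Prod.smul_fst, smul_eq_mul]
      ring
    · simp only [Matrix.of_apply, Matrix.cons_val', Matrix.cons_val_zero, Matrix.cons_val_one,
        Matrix.cons_val_fin_one, Prod.smul_snd, smul_eq_mul]
      ring
  rw [h, smul_smul, inv_mul_cancel₀ hd, one_smul]

end Algebra

/-! ## B. Topology: Schwartz--Bruhat functions -/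

section Topology

variable {k : Type} [NormedField k]

theorem continuous_actL144d (m : Matrix (Fin 2) (Fin 2) k) : Continuous (actL m) := by
  unfold actL
  fun_prop

theorem continuous_qfL144d (t n : k) : Continuous (qfL t n) := by
  unfold qfL
  fun_prop

theorem continuous_bfL144d (t n : k) (ξ : k × k) : Continuous (bfL t n ξ) := by
  unfold bfL
  have h := continuous_qfL144d t n
  fun_prop

/-- `Φ ∘ m` is Schwartz--Bruhat for `det m ≠ 0`. -/
theorem isSB_comp_actL144d (m : Matrix (Fin 2) (Fin 2) k) (hd : m.det ≠ 0) (Φ : k × k → ℂ)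
    (hΦ : IsSB Φ) : IsSB (fun w => Φ (actL m w)) := by
  refine ⟨hΦ.1.comp_continuous (continuous_actL144d m), ?_⟩
  refine HasCompactSupport.intro
    (hΦ.2.isCompact.image (continuous_actL144d (m.det⁻¹ • m.adjugate))) ?_
  intro w hw
  by_contra hne
  apply hw
  refine ⟨actL m w, ?_, actL_adj_cancel144d m hd w⟩
  exact subset_tsupport _ hne

/-- A Schwartz--Bruhat function times a locally constant function. -/
theorem isSB_mul_right144d (Φ g : k × k → ℂ) (hΦ : IsSB Φ) (hg : IsLocallyConstant g) :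
    IsSB (fun z => Φ z * g z) :=
  ⟨hΦ.1.mul hg, hΦ.2.mul_right⟩

/-- A locally constant function times a Schwartz--Bruhat function. -/
theorem isSB_mul_left144d (Φ g : k × k → ℂ) (hΦ : IsSB Φ) (hg : IsLocallyConstant g) :
    IsSB (fun z => g z * Φ z) :=
  ⟨hg.mul hΦ.1, hΦ.2.mul_left⟩

theorem intL_const_mul144d (μ : @Measure k (borel k)) (r : ℂ) (f : k × k → ℂ) :
    intL μ (fun y => r * f y) = r * intL μ f := by
  unfold intL
  exact integral_const_mul r f

end Topology

/-! ## C. The identity -/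

section Identity

variable {k : Type} [NormedField k]

/-- **The identity behind `GaussNormP`**: `‖N‖ (G (a N) I') = G a I'` for
`I' = ∫ Φ'(z) ψ(-Q(z + m ξ) / (a N)) dz`, `m = torMat t n x y`, `N = Q(x, y) ≠ 0`. -/
theorem gaussNorm_identity144d (t n : k) (ψ : k → ℂ) (μ : @Measure k (borel k)) (c : ℝ)
    (G : k → ℂ) (hψ : IsLocallyConstant ψ) (hF : FourierCert t n ψ μ c G)
    (a : k) (ha : a ≠ 0) (x y : k) (hN : qfL t n (x, y) ≠ 0)
    (Φ' : k × k → ℂ) (hΦ' : IsSB Φ') (ξ : k × k) :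
    ((‖qfL t n (x, y)‖ : ℝ) : ℂ) * (G (a * qfL t n (x, y)) *
        intL μ (fun z => Φ' z *
          ψ (-(qfL t n (z + actL (torMat t n x y) ξ)) / (a * qfL t n (x, y)))))
      = G a * intL μ (fun z => Φ' z *
          ψ (-(qfL t n (z + actL (torMat t n x y) ξ)) / (a * qfL t n (x, y)))) := by
  set N : k := qfL t n (x, y) with hNdef
  set m : Matrix (Fin 2) (Fin 2) k := torMat t n x y with hmdef
  have hdet : m.det = N := det_torMat144d t n x y
  have hdet0 : m.det ≠ 0 := by rw [hdet]; exact hN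
  have haN : a * N ≠ 0 := mul_ne_zero ha hN
  have hnorm0 : ((‖N‖ : ℝ) : ℂ) ≠ 0 := by
    rw [Ne, Complex.ofReal_eq_zero, norm_eq_zero]; exact hN
  -- the function `Φ = Φ' ∘ m`
  set Φ : k × k → ℂ := fun w => Φ' (actL m w) with hΦdef
  have hΦ : IsSB Φ := isSB_comp_actL144d m hdet0 Φ' hΦ'
  -- the integral `I'`
  set I' : ℂ := intL μ (fun z => Φ' z * ψ (-(qfL t n (z + actL m ξ)) / (a * N))) with hI'
  -- (3) `I = ‖N‖⁻¹ I'`
  have h3 : intL μ (fun w => Φ w * ψ (-(qfL t n (w + ξ)) / a))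
      = ((‖N‖⁻¹ : ℝ) : ℂ) * I' := by
    have hsb : IsSB (fun z => Φ' z * ψ (-(qfL t n (z + actL m ξ)) / (a * N))) := by
      refine isSB_mul_right144d Φ' _ hΦ' ?_
      refine hψ.comp_continuous (f := fun z : k × k => -(qfL t n (z + actL m ξ)) / (a * N)) ?_
      have h := continuous_qfL144d t n
      fun_prop
    have h := hF.cov m hdet0 _ hsb
    rw [hdet] at h
    rw [← h]
    refine congrArg (intL μ) (funext fun w => ?_)
    show Φ' (actL m w) * ψ (-(qfL t n (w + ξ)) / a)
      = Φ' (actL m w) * ψ (-(qfL t n (actL m w + actL m ξ)) / (a * N))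
    rw [← actL_add144d, hmdef, qfL_torMat144d, ← hNdef]
    congr 2
    field_simp
  -- (5) `FT Φ' (m' u) = ‖N‖ FT Φ u`, `m' = N⁻¹ m`
  set m' : Matrix (Fin 2) (Fin 2) k := N⁻¹ • m with hm'def
  have hdet' : m'.det = N⁻¹ := by
    rw [hm'def, det_smulMat144d, hdet]
    field_simp
  have hdet'0 : m'.det ≠ 0 := by rw [hdet']; exact inv_ne_zero hN
  have h5 : ∀ u : k × k, ftL t n ψ μ Φ' (actL m' u)
      = ((‖N‖ : ℝ) : ℂ) * ftL t n ψ μ Φ u := by
    intro u
    have hsb : IsSB (fun z => Φ' z * ψ (bfL t n (actL m' u) z)) := by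
      refine isSB_mul_right144d Φ' _ hΦ' ?_
      exact hψ.comp_continuous (continuous_bfL144d t n _)
    have h := hF.cov m hdet0 _ hsb
    rw [hdet] at h
    have h' : ftL t n ψ μ Φ u = ((‖N‖⁻¹ : ℝ) : ℂ) * ftL t n ψ μ Φ' (actL m' u) := by
      unfold ftL
      rw [← h]
      refine congrArg (intL μ) (funext fun w => ?_)
      show Φ' (actL m w) * ψ (bfL t n u w)
        = Φ' (actL m w) * ψ (bfL t n (actL m' u) (actL m w))
      rw [hm'def, actL_smulMat144d, bfL_smul_left144d, hmdef, bfL_torMat144d, ← hNdef,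
        ← mul_assoc, inv_mul_cancel₀ hN, one_mul]
    rw [h', ← mul_assoc, ← Complex.ofReal_mul, mul_inv_cancel₀ (norm_ne_zero_iff.mpr hN),
      Complex.ofReal_one, one_mul]
  -- (4) the outer change of variables
  have hsbF : IsSB (fun y => ψ (a * N * qfL t n y) * ftL t n ψ μ Φ' y *
      ψ (bfL t n (actL m ξ) y)) := by
    refine isSB_mul_right144d _ _ (isSB_mul_left144d _ _ (hF.ft_sb Φ' hΦ') ?_) ?_
    · refine hψ.comp_continuous (f := fun y : k × k => a * N * qfL t n y) ?_
      have h := continuous_qfL144d t n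
      fun_prop
    · exact hψ.comp_continuous (continuous_bfL144d t n _)
  have h4 := hF.cov m' hdet'0 _ hsbF
  rw [hdet', norm_inv, inv_inv] at h4
  -- the Gauss identity for `(a N, Φ', m ξ)` and for `(a, Φ, ξ)`
  have hG1 := hF.gauss (a * N) haN Φ' hΦ' (actL m ξ)
  have hG2 := hF.gauss a ha Φ hΦ ξ
  have hL : intL μ (fun u => ψ (a * N * qfL t n (actL m' u)) * ftL t n ψ μ Φ' (actL m' u) *
      ψ (bfL t n (actL m ξ) (actL m' u)))
      = ((‖N‖ : ℝ) : ℂ) * ftL t n ψ μ (fun y => ψ (a * qfL t n y) * ftL t n ψ μ Φ y) ξ := by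
    unfold ftL
    rw [← intL_const_mul144d]
    refine congrArg (intL μ) (funext fun u => ?_)
    have e1 : a * N * qfL t n (actL m' u) = a * qfL t n u := by
      rw [hm'def, actL_smulMat144d, qfL_smul144d, hmdef, qfL_torMat144d, ← hNdef]
      field_simp
    have e2 : bfL t n (actL m ξ) (actL m' u) = bfL t n ξ u := by
      have hsym : ∀ p q : k × k, bfL t n p q = bfL t n q p := by
        intro p q
        unfold bfL
        rw [add_comm p q]
        ring
      rw [hsym, hm'def, actL_smulMat144d, bfL_smul_left144d, hmdef, bfL_torMat144d, ← hNdef,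
        ← mul_assoc, inv_mul_cancel₀ hN, one_mul, hsym]
    have e3 := h5 u
    unfold ftL at e3
    rw [e1, e2, e3]
    ring
  have hLHS : ftL t n ψ μ (fun y => ψ (a * N * qfL t n y) * ftL t n ψ μ Φ' y) (actL m ξ)
      = intL μ (fun y => ψ (a * N * qfL t n y) * ftL t n ψ μ Φ' y *
          ψ (bfL t n (actL m ξ) y)) := rfl
  -- assembly
  rw [hLHS] at hG1
  rw [hL, hG2, h3] at h4
  rw [hG1] at h4
  -- `h4 : ‖N‖ * (G a * (‖N‖⁻¹ * I')) = ‖N‖ * (G (a N) * I')`
  have h6 : ((‖N‖ : ℝ) : ℂ) * (G a * (((‖N‖⁻¹ : ℝ) : ℂ) * I')) = G a * I' := by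
    rw [Complex.ofReal_inv]
    field_simp
  rw [h6] at h4
  exact h4.symm

end Identity

/-! ## D. Characters of an ultrametric field are locally constant -/

section Character

/-- No small subgroups: if all the powers of `z` are at distance `≤ 1/2` from `1`, then
`z = 1`. -/
theorem eq_one_of_pow_near144d (z : ℂ) (h : ∀ j : ℕ, ‖z ^ j - 1‖ ≤ 1 / 2) : z = 1 := by
  by_contra hz
  have hz1 : 0 < ‖z - 1‖ := norm_pos_iff.mpr (sub_ne_zero.mpr hz)
  -- real parts
  have hre : ∀ j : ℕ, (1 : ℝ) / 2 ≤ (z ^ j).re := by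
    intro j
    have h1 : |(z ^ j - 1).re| ≤ ‖z ^ j - 1‖ := Complex.abs_re_le_norm _
    have h2 := h j
    have h3 : (z ^ j - 1).re = (z ^ j).re - 1 := by simp
    rw [h3] at h1
    have := (abs_le.mp (h1.trans h2)).1
    linarith
  have hsum : ∀ N : ℕ, (N : ℝ) / 2 ≤ ‖∑ j ∈ Finset.range N, z ^ j‖ := by
    intro N
    have h1 : (N : ℝ) / 2 ≤ (∑ j ∈ Finset.range N, z ^ j).re := by
      rw [Complex.re_sum]
      calc (N : ℝ) / 2 = ∑ _j ∈ Finset.range N, (1 : ℝ) / 2 := by
            rw [Finset.sum_const, Finset.card_range, nsmul_eq_mul]; ring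
        _ ≤ ∑ j ∈ Finset.range N, (z ^ j).re := Finset.sum_le_sum fun j _ => hre j
    exact h1.trans ((le_abs_self _).trans (Complex.abs_re_le_norm _))
  obtain ⟨N, hNbig⟩ := exists_nat_gt (1 / ‖z - 1‖)
  have h1 : (∑ j ∈ Finset.range N, z ^ j) * (z - 1) = z ^ N - 1 := geom_sum_mul z N
  have h2 : ‖∑ j ∈ Finset.range N, z ^ j‖ * ‖z - 1‖ ≤ 1 / 2 := by
    rw [← norm_mul, h1]; exact h N
  have h3 : (N : ℝ) / 2 * ‖z - 1‖ ≤ 1 / 2 :=
    (mul_le_mul_of_nonneg_right (hsum N) hz1.le).trans h2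
  have h4 : 1 < (N : ℝ) * ‖z - 1‖ := by
    rw [div_lt_iff₀ hz1] at hNbig
    exact hNbig
  linarith

variable {k : Type} [NormedField k] [IsUltrametricDist k]

/-- A continuous unitary character of an ultrametric normed field is trivial on a ball. -/
theorem char_trivial_ball144d (ψ : k → ℂ) (hψ : IsCharL ψ) :
    ∃ ε : ℝ, 0 < ε ∧ ∀ x : k, ‖x‖ < ε → ψ x = 1 := by
  obtain ⟨hc, hadd, hnorm, -⟩ := hψ
  have h0 : ψ 0 = 1 := by
    have h1 : ψ 0 = ψ 0 * ψ 0 := by
      conv_lhs => rw [← add_zero (0 : k)]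
      exact hadd 0 0
    have h2 : ψ 0 ≠ 0 := by
      intro h
      have := hnorm 0
      rw [h, norm_zero] at this
      exact zero_ne_one this
    have h3 : ψ 0 * 1 = ψ 0 * ψ 0 := by rw [mul_one]; exact h1
    exact (mul_left_cancel₀ h2 h3).symm
  have hpow : ∀ (x : k) (j : ℕ), ψ ((j : k) * x) = ψ x ^ j := by
    intro x j
    induction j with
    | zero => simp [h0]
    | succ j ih =>
      rw [Nat.cast_succ, add_mul, one_mul, hadd, ih, pow_succ]
  have hnb : {y : ℂ | ‖y - 1‖ < 1 / 2} ∈ 𝓝 (ψ 0) := by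
    rw [h0]
    have : {y : ℂ | ‖y - 1‖ < 1 / 2} = Metric.ball 1 (1 / 2) := by
      ext y
      simp [Metric.mem_ball, dist_eq_norm]
    rw [this]
    exact Metric.ball_mem_nhds _ (by norm_num)
  have hpre := hc.continuousAt.preimage_mem_nhds hnb
  obtain ⟨ε, hε, hball⟩ := Metric.mem_nhds_iff.mp hpre
  refine ⟨ε, hε, fun x hx => ?_⟩
  apply eq_one_of_pow_near144d
  intro j
  rw [← hpow]
  have hj : ‖(j : k) * x‖ < ε := by
    rw [norm_mul]
    have h1 : ‖(j : k)‖ ≤ 1 := IsUltrametricDist.norm_natCast_le_one k j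
    calc ‖(j : k)‖ * ‖x‖ ≤ 1 * ‖x‖ := mul_le_mul_of_nonneg_right h1 (norm_nonneg _)
      _ = ‖x‖ := one_mul _
      _ < ε := hx
  have hmem : (j : k) * x ∈ Metric.ball (0 : k) ε := by
    rw [Metric.mem_ball, dist_zero_right]; exact hj
  exact le_of_lt (hball hmem)

/-- A continuous unitary character of an ultrametric normed field is locally constant. -/
theorem char_locConst144d (ψ : k → ℂ) (hψ : IsCharL ψ) : IsLocallyConstant ψ := by
  obtain ⟨ε, hε, htriv⟩ := char_trivial_ball144d ψ hψ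
  rw [IsLocallyConstant.iff_eventually_eq]
  intro x
  have hb : Metric.ball x ε ∈ 𝓝 x := Metric.ball_mem_nhds x hε
  filter_upwards [hb] with y hy
  have h1 : y = x + (y - x) := by ring
  rw [h1, hψ.2.1, htriv (y - x) (by rwa [Metric.mem_ball, dist_eq_norm] at hy), mul_one]

end Character

end Fermat.Agent.LT.A2.H144

end
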