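import Mathlib
import Fermat.Agent.LT.A2.H38.ArtinSeedSpec

/-!
# Row LT, tower A2, branch GALSEED, leaf A2.01.06 `TotCplxLC` (helper144), OFF-MAIN

`totCplxLC : Fermat.Agent.LT.A2.H38.TotCplxLC` (VERBATIM, `LT/A2/H38/ArtinSeedSpec.lean`,
origin/helper38@fd6f38a61): `L = fieldL ρ` is totally complex.

Route (direct, independent of `TotCplxC`): a root `ζ` of `X² + X + 1` in `ℚ̄` is a cube root of
unity, hence `σ ζ = ζ ^ (ω̄ σ)` with `ω̄ = modThreeCyclotomicChar`; on `ρ⁻¹(C4)` the determinant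
is `1`, so `ζ ∈ L`; a real embedding of `L` would give a real root of `X² + X + 1`.
-/

set_option autoImplicit false

open scoped MatrixGroups
open NumberField

noncomputable section

namespace Fermat.Agent.LT.A2.H144

open Fermat.Agent.LT.A2.H38 Fermat.Agent.LT WeierstrassCurve

local notation "Γℚ" => (AlgebraicClosure ℚ ≃ₐ[ℚ] AlgebraicClosure ℚ)

/-- A root of `X² + X + 1` in `ℚ̄`. -/
theorem exists_zeta : ∃ ζ : AlgebraicClosure ℚ, ζ ^ 2 + ζ + 1 = 0 := by
  obtain ⟨ζ, hζ⟩ := IsAlgClosed.exists_root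
    (Polynomial.X ^ 2 + Polynomial.X + 1 : Polynomial (AlgebraicClosure ℚ)) (by
      have h : (Polynomial.X ^ 2 + Polynomial.X + 1 : Polynomial (AlgebraicClosure ℚ)).degree
          = 2 := by compute_degree!
      rw [h]; norm_num)
  refine ⟨ζ, ?_⟩
  simpa using hζ

theorem det_eq_one_of_mem_C4 {g : GL (Fin 2) (ZMod 3)} (hg : g ∈ C4) :
    Matrix.GeneralLinearGroup.det g = 1 := by
  obtain ⟨k, rfl⟩ := Subgroup.mem_zpowers_iff.mp hg
  rw [map_zpow, det_g0, one_zpow]

/-- An automorphism with trivial cyclotomic character modulo `3` fixes `ζ`. -/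
theorem fix_zeta {ζ : AlgebraicClosure ℚ} (hζ : ζ ^ 2 + ζ + 1 = 0) (σ : Γℚ)
    (hσ : modThreeCyclotomicChar σ = 1) : σ ζ = ζ := by
  have h3 : ζ ^ 3 = 1 := by
    have : ζ ^ 3 - 1 = (ζ - 1) * (ζ ^ 2 + ζ + 1) := by ring
    rw [hζ, mul_zero, sub_eq_zero] at this
    exact this
  have h0 : ζ ≠ 0 := by
    rintro rfl
    norm_num at h3
  have hmem : Units.mk0 ζ h0 ∈ rootsOfUnity 3 (AlgebraicClosure ℚ) := by
    rw [mem_rootsOfUnity]
    apply Units.ext
    simpa using h3
  have hspec := modularCyclotomicCharacter.spec (AlgebraicClosure ℚ)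
    (IsAlgClosed.card_rootsOfUnity_eq (AlgebraicClosure ℚ) 3)
    (σ : AlgebraicClosure ℚ ≃+* AlgebraicClosure ℚ) hmem
  have hchar : modularCyclotomicCharacter (AlgebraicClosure ℚ)
      (IsAlgClosed.card_rootsOfUnity_eq (AlgebraicClosure ℚ) 3)
      (σ : AlgebraicClosure ℚ ≃+* AlgebraicClosure ℚ) = 1 := by
    rw [← modThreeCyclotomicChar_apply]; exact hσ
  rw [hchar] at hspec
  have hval : ((1 : (ZMod 3)ˣ) : ZMod 3).val = 1 := by decide
  rw [hval, pow_one] at hspec
  simpa using hspec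

theorem zeta_mem_fieldL {ρ : Γℚ →* GL (Fin 2) (ZMod 3)}
    (hdet : ∀ σ : Γℚ, Matrix.GeneralLinearGroup.det (ρ σ) = modThreeCyclotomicChar σ)
    {ζ : AlgebraicClosure ℚ} (hζ : ζ ^ 2 + ζ + 1 = 0) : ζ ∈ fieldL ρ := by
  rw [fieldL, IntermediateField.mem_fixedField_iff]
  intro σ hσ
  have h1 : ρ σ ∈ C4 := Subgroup.mem_comap.mp hσ
  exact fix_zeta hζ σ (by rw [← hdet σ, det_eq_one_of_mem_C4 h1])

/-- **Leaf A2.01.06 `TotCplxLC`.** -/
theorem totCplxLC : TotCplxLC := by
  intro ρ Ψ hyp _ w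
  obtain ⟨ζ, hζ⟩ := exists_zeta
  rcases w.isReal_or_isComplex with hr | hc
  · exfalso
    set z : fieldL ρ := ⟨ζ, zeta_mem_fieldL hyp.det hζ⟩ with hz
    have hz2 : z ^ 2 + z + 1 = 0 := by
      apply Subtype.ext
      simpa using hζ
    have hφ : NumberField.ComplexEmbedding.IsReal w.embedding :=
      (NumberField.InfinitePlace.isReal_iff).mp hr
    have hconj : (starRingEnd ℂ) (w.embedding z) = w.embedding z := by
      have h1 := NumberField.ComplexEmbedding.conjugate_coe_eq w.embedding z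
      have h2 : NumberField.ComplexEmbedding.conjugate w.embedding = w.embedding :=
        NumberField.ComplexEmbedding.isReal_iff.mp hφ
      rw [h2] at h1
      exact h1.symm
    have him : (w.embedding z).im = 0 := Complex.conj_eq_iff_im.mp hconj
    have hre : ((w.embedding z).re : ℂ) = w.embedding z := by
      apply Complex.ext <;> simp [him]
    have heq : (w.embedding z) ^ 2 + w.embedding z + 1 = 0 := by
      have := congrArg w.embedding hz2
      simpa using this
    rw [← hre] at heq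
    have hreal : (w.embedding z).re ^ 2 + (w.embedding z).re + 1 = 0 := by
      exact_mod_cast heq
    nlinarith [sq_nonneg ((w.embedding z).re + 1 / 2)]
  · exact hc

end Fermat.Agent.LT.A2.H144

end
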